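/-
PROJECT D (S48, Deligne–Serre), THE SEAM `(B*)` BETWEEN PART A AND PART B (helper8, chief D).

* `DeligneSerre`  : the statement of S48, as a `Prop` (character for character the frozen statement).
* `ResidualReps`  : **(B*)**: for `f` as in S48 and every large prime `ℓ`, every field `k` of
  characteristic `ℓ` and every `φ : integralClosure ℤ ℂ →+* k`, a residual representation
  `ρ : ResidualGaloisRep k` (two-dimensional, of finite level: `Prelude/Def_GaloisRep_Residual`),
  unramified outside `N ℓ`, with `charpoly (ρ Frob_p) = X ^ 2 - φ(a_p) X + φ(ε(p))` for every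
  `p ∤ N ℓ`, every place over `p` and every Frobenius; `a_p`, `ε(p)` are named as elements of
  `integralClosure ℤ ℂ`, as the Prelude does in `ResidualGaloisRep.IsAttachedTo`.

PART A proves `ResidualReps → DeligneSerre`; PART B proves `ResidualReps`.
NOT in `(B*)`: semisimplicity (PART A semisimplifies: a reducible `ρ` is replaced by the sum of its two
characters; same characteristic polynomials, same inertia, same finite level).
-/
import Mathlib
import Fermat.Prelude.Def_GaloisRep_Residual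
import Fermat.Prelude.Def_Deformations_MatrixRepresentation

set_option autoImplicit false

noncomputable section

namespace Fermat.Agent.S48.Seam

open CongruenceSubgroup Polynomial
open scoped MatrixGroups

local notation "Γℚ" => (AlgebraicClosure ℚ ≃ₐ[ℚ] AlgebraicClosure ℚ)

/-- the hypothesis `hT` of S48: the formal Hecke relations of `f` with `ε` at the primes `p ∤ N` -/
def HeckeRel (N : ℕ) [NeZero N] (ε : DirichletCharacter ℂ N) (f : CuspForm (Gamma1 N) 1) : Prop :=
  ∀ p : ℕ, p.Prime → ¬ p ∣ N → ∀ n : ℕ,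
    ModularFormClass.qCoeff f (p * n) +
        ε (p : ZMod N) * (if p ∣ n then ModularFormClass.qCoeff f (n / p) else 0) =
      ModularFormClass.qCoeff f p * ModularFormClass.qCoeff f n

/-- **the statement of S48** -/
def DeligneSerre : Prop :=
  ∀ (N : ℕ) [NeZero N] (ε : DirichletCharacter ℂ N) (f : CuspForm (Gamma1 N) 1),
    ModularFormClass.qCoeff f 1 = 1 → HeckeRel N ε f →
    ∃ ρ : Γℚ →* GL (Fin 2) ℂ, GaloisFactorsThroughFiniteLevel ρ ∧
      (Deformation.matrixRepresentation ρ).IsIrreducible ∧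
      ∀ p : ℕ, p.Prime → ¬ p ∣ N →
        ∀ A : ValuationSubring (AlgebraicClosure ℚ), A.LiesOverPrime p →
          (∀ σ ∈ A.inertiaSubgroupIn ℚ, ρ σ = 1) ∧
          ∀ σ : Γℚ, A.IsFrobeniusAt σ p →
            ((ρ σ : GL (Fin 2) ℂ) : Matrix (Fin 2) (Fin 2) ℂ).trace = ModularFormClass.qCoeff f p ∧
            ((ρ σ : GL (Fin 2) ℂ) : Matrix (Fin 2) (Fin 2) ℂ).det = ε (p : ZMod N)

/-- `ρ` is attached to `(f, ε)` modulo `φ` away from `N ℓ`: the characteristic polynomial of every
Frobenius at `p ∤ N ℓ` is `X ^ 2 - φ(a_p) X + φ(ε(p))`. -/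
def IsAttachedToWeightOne {k : Type} [Field k] (ρ : ResidualGaloisRep k) {N : ℕ} [NeZero N]
    (ε : DirichletCharacter ℂ N) (f : CuspForm (Gamma1 N) 1) (ℓ : ℕ)
    (φ : integralClosure ℤ ℂ →+* k) : Prop :=
  ∀ p : ℕ, p.Prime → ¬ p ∣ N * ℓ →
    ∀ A : ValuationSubring (AlgebraicClosure ℚ), A.LiesOverPrime p →
      ∀ σ : Γℚ, A.IsFrobeniusAt σ p →
        ∃ a e : integralClosure ℤ ℂ, (a : ℂ) = ModularFormClass.qCoeff f p ∧
          (e : ℂ) = ε (p : ZMod N) ∧
          LinearMap.charpoly (ρ.ρ σ) = X ^ 2 - C (φ a) * X + C (φ e)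

/-- **(B*)**: the residual representations of a weight-one eigenform, for all large `ℓ`. -/
def ResidualReps : Prop :=
  ∀ (N : ℕ) [NeZero N] (ε : DirichletCharacter ℂ N) (f : CuspForm (Gamma1 N) 1),
    ModularFormClass.qCoeff f 1 = 1 → HeckeRel N ε f →
    ∃ B₀ : ℕ, ∀ ℓ : ℕ, ℓ.Prime → B₀ < ℓ →
      ∀ (k : Type) [Field k] [CharP k ℓ] (φ : integralClosure ℤ ℂ →+* k),
        ∃ ρ : ResidualGaloisRep k,
          (∀ p : ℕ, p.Prime → ¬ p ∣ N * ℓ → ρ.IsUnramifiedAt p) ∧
            IsAttachedToWeightOne ρ ε f ℓ φ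

end Fermat.Agent.S48.Seam

end
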