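/-
PROJECT D (S48, Deligne–Serre), THE TOP (helper8, chief D).

Everything of PROJECT D that is a theorem today, wired: part A (helper6's `A/Main`, helper24's
`A/TwistL/LCont.lContinuous`), brick B7 (helper21's `B7/Top.residualReps_of_modEigen`), block B5
(helper17's `B/Inst/Top.residualRepsModEigen_of5`, with block B1 = helper7's `B/B1/Main` inside).

**`deligneSerre_of`** : the statement of S48 from the ONE seam that is not a theorem yet:

* `ReductionAll` : the reduction interface `HasReduction1All M P` at every level `M ≥ 5` and every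
                   prime `P` (blocks B2 + B3 + B4 + [B-ES]).
-/
import Mathlib
import Fermat.Agent.S48.Seam
import Fermat.Agent.S48.A.Main
import Fermat.Agent.S48.A.TwistL.LCont
import Fermat.Agent.S48.A.Conj.Final
import Fermat.Agent.S48.B7.Top
import Fermat.Agent.S48.B.Inst.Top

set_option autoImplicit false

noncomputable section

namespace Fermat.Agent.S48.Top

open Fermat.Agent.S48.B.Defs.Reduction Fermat.Agent.S48.B.Defs.Spec

/-- **the reduction interface at every level and every residue characteristic** -/
def ReductionAll : Prop :=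
  ∀ (M : ℕ) [NeZero M], 5 ≤ M → ∀ P : ℕ, P.Prime → HasReduction1All M P

/-- the deliverable of B5 at every level, on the open seam -/
theorem residualRepsModEigen_of (hred : ReductionAll)
    (M : ℕ) [NeZero M] (ℓ : ℕ) (hℓ : ℓ.Prime) (hℓ2 : ℓ ≠ 2) (hM : 5 ≤ M) :
    ResidualRepsModEigen M ℓ :=
  Fermat.Agent.S48.B.Inst.Top.residualRepsModEigen_of5 M ℓ hℓ hℓ2 hM (hred M hM)

/-- the coefficients prime to the level are algebraic integers (brick A3, `Conj/Final`) -/
theorem coeffIntegral : Fermat.Agent.S48.B7.Top.CoeffIntegral :=
  Fermat.Agent.S48.B7.Top.coeffIntegral_of_exists_field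
    fun N _ ε f h1 hT => Fermat.Agent.S48.A.Conj.Final.exists_field N ε f h1 hT

/-- **(B*)** on the open seam -/
theorem residualReps_of (hred : ReductionAll) : Fermat.Agent.S48.Seam.ResidualReps :=
  Fermat.Agent.S48.B7.Top.residualReps_of_modEigen
    (fun M _ ℓ hℓ hℓ2 hM => residualRepsModEigen_of hred M ℓ hℓ hℓ2 hM) coeffIntegral

/-- **S48 on the open seam** -/
theorem deligneSerre_of (hred : ReductionAll) : Fermat.Agent.S48.Seam.DeligneSerre :=
  Fermat.Agent.S48.A.Main.deligneSerre_of_lContinuous (residualReps_of hred)
    Fermat.Agent.S48.A.TwistL.LCont.lContinuous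

end Fermat.Agent.S48.Top

end
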