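/-
PROJECT D (S48, Deligne–Serre), THE GEOMETRIC HALF OF PART B, HYPOTHESIS-FREE (helper8, chief D).

`reductionAll : Top.ReductionAll` : the reduction interface `HasReduction1All M P` at every level
`M` and every prime `P`, from

* block B2 : helper25's `Igusa/Main.igusaDeg M` (helper23's `Igusa/U1/Main.unique1`);
* helper23's `Igusa/U1/ActStable.actStable M` (the Gauss ring of the full level field is stable);
* [B-ES]  : helper10's `ES/RelPic1/Final.es1_of_seams` (on helper8's `ES/Descent`);
* block B3 : helper11's `Red/Final1.hasReduction1All_of_actStable` (B1, B4, K3, Cusp1 plugged inside).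
-/
import Mathlib
import Fermat.Agent.S48.Top
import Fermat.Agent.S48.B.B1.Main
import Fermat.Agent.S48.B.Igusa.Main
import Fermat.Agent.S48.B.Igusa.U1.ActStable
import Fermat.Agent.S48.B.ES.RelPic1.Final
import Fermat.Agent.S48.B.Red.Final1

set_option autoImplicit false

noncomputable section

namespace Fermat.Agent.S48.Reduction

open Fermat.Agent.S48.B.Defs.Reduction

/-- **(R3') at every level**: the Eichler–Shimura relation of `X₁(M)`, hypothesis-free -/
theorem es1 (M : ℕ) [NeZero M] : Fermat.Agent.S48.B.Red.Glue1.ES1 M :=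
  Fermat.Agent.S48.B.ES.RelPic1.Final.es1_of_seams M
    (Fermat.Agent.S48.B.B1.Main.deg1 M)
    (fun ℓ _ => Fermat.Agent.S48.B.B1.Main.deg1p M ℓ)
    (Fermat.Agent.S48.B.B1.Main.repLe M)
    (Fermat.Agent.S48.B.B1.Main.diamondAn M)
    (Fermat.Agent.S48.B.B1.Main.diamondExists M)
    (Fermat.Agent.S48.B.Igusa.Main.igusaDeg M)
    (Fermat.Agent.S48.B.Red.Final1.redInputs1_of_actStable
      (Fermat.Agent.S48.B.Igusa.Main.igusaDeg M)
      (Fermat.Agent.S48.B.Igusa.U1.ActStable.actStable M))

/-- **the reduction interface of `J₁(M)` at every prime `P`**, hypothesis-free -/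
theorem hasReduction1All (M : ℕ) [NeZero M] {P : ℕ} (hP : P.Prime) : HasReduction1All M P :=
  Fermat.Agent.S48.B.Red.Final1.hasReduction1All_of_actStable
    (Fermat.Agent.S48.B.Igusa.Main.igusaDeg M)
    (Fermat.Agent.S48.B.Igusa.U1.ActStable.actStable M) hP (es1 M)

/-- **the one seam of `S48/Top` is a theorem** -/
theorem reductionAll : Fermat.Agent.S48.Top.ReductionAll :=
  fun M _ _ _ hP => hasReduction1All M hP

/-- **Deligne–Serre, in the vocabulary of `S48/Seam`** -/
theorem deligneSerre : Fermat.Agent.S48.Seam.DeligneSerre :=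
  Fermat.Agent.S48.Top.deligneSerre_of reductionAll

end Fermat.Agent.S48.Reduction

end
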